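import Fermat.Agent.CMTwist.Structure

/-!
# Stable lines with complex multiplication

For an odd prime `p ∣ D` the kernel of `2 θ - t` on the points killed by `p` is a stable line.
Over a field without `√D` a stable line is this kernel, or every automorphism fixing `√D` is a
scalar and then fixes `√(± p)`.
-/

set_option autoImplicit false
set_option linter.style.haveILetI false
set_option linter.unusedSectionVars false

noncomputable section

open WeierstrassCurve NumberField Module FA.IsogenyNF FA.CMFields FA.CMTwist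
open scoped WeierstrassCurve.Affine Classical NumberTheorySymbols

local notation "Qb" => AlgebraicClosure ℚ

namespace FA.CMStableLine

variable {F : IntermediateField ℚ Qb} [FiniteDimensional ℚ F] {E : WeierstrassCurve F}
  [E.IsElliptic] {θ : (E.toAffine⁄Qb).Point →+ (E.toAffine⁄Qb).Point} {t m : ℤ} {p : ℕ}

/-- A multiple of `p` kills the points killed by `p`. -/
theorem zsmul_eq_zero_of_dvd {z : ℤ} {R : (E.toAffine⁄Qb).Point} (hz : (p : ℤ) ∣ z)
    (hR : p • R = 0) : z • R = 0 := by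
  obtain ⟨w, rfl⟩ := hz
  rw [mul_comm, mul_zsmul, natCast_zsmul, hR, zsmul_zero]

/-- **The line killed by `2 θ - t`.** -/
theorem exists_line (hp : p.Prime) (hp2 : p ≠ 2)
    (hθθ : ∀ P : (E.toAffine⁄Qb).Point, p • P = 0 → θ (θ P) = t • θ P - m • P)
    (hfaith : ∀ c c' : ℤ, (∀ P : (E.toAffine⁄Qb).Point, p • P = 0 → c • P + c' • θ P = 0) →
      (p : ℤ) ∣ c ∧ (p : ℤ) ∣ c') (hD : (p : ℤ) ∣ t ^ 2 - 4 * m) :
    ∃ Q : (E.toAffine⁄Qb).Point, addOrderOf Q = p ∧ ∀ R : (E.toAffine⁄Qb).Point, p • R = 0 →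
      ((2 : ℤ) • θ R - t • R = 0 ↔ R ∈ AddSubgroup.zmultiples Q) := by
  haveI := Fact.mk hp
  haveI : Algebra.IsAlgebraic F Qb := Algebra.IsAlgebraic.tower_top (K := ℚ) F
  let T : AddSubgroup (E.toAffine⁄Qb).Point :=
    (nsmulAddMonoidHom (α := (E.toAffine⁄Qb).Point) p).ker
  let Φ : (E.toAffine⁄Qb).Point →+ (E.toAffine⁄Qb).Point :=
    (2 : ℤ) • θ - t • AddMonoidHom.id _
  have hΦ : ∀ R, Φ R = (2 : ℤ) • θ R - t • R := fun R => rfl
  have hcard : Nat.card T = p ^ 2 := (Nat.card_coe_set_eq _).trans (ncard_killed E hp.ne_zero)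
  haveI : Finite T := Nat.finite_of_card_ne_zero (by rw [hcard]; exact pow_ne_zero 2 hp.ne_zero)
  have hmem : ∀ R ∈ T, Φ R ∈ T := fun R (hR : p • R = 0) => by
    show p • Φ R = 0
    rw [← map_nsmul, hR, map_zero]
  let Φ₀ : T →+ T :=
    { toFun := fun R => ⟨Φ R, hmem R R.2⟩
      map_zero' := Subtype.ext (map_zero Φ)
      map_add' := fun R S => Subtype.ext (map_add Φ R.1 S.1) }
  -- the square is zero
  have hsq : Φ₀.range ≤ Φ₀.ker := by
    rintro _ ⟨R, rfl⟩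
    refine AddMonoidHom.mem_ker.2 (Subtype.ext ?_)
    show Φ (Φ R.1) = 0
    have hR : p • R.1 = 0 := R.2
    have e : Φ (Φ R.1) = (t ^ 2 - 4 * m) • R.1 := by
      simp only [hΦ, map_sub, map_zsmul, hθθ R.1 hR]
      module
    rw [e, zsmul_eq_zero_of_dvd hD hR]
  -- it is not zero
  have hne : Φ₀.range ≠ ⊥ := fun h => by
    have h2 := (hfaith (-t) 2 fun P hP => by
      have e : Φ₀ ⟨P, hP⟩ = 0 := AddSubgroup.mem_bot.1 (h ▸ ⟨_, rfl⟩)
      have e' : Φ P = 0 := congrArg Subtype.val e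
      rw [← e', hΦ]
      module).2
    exact hp2 ((Nat.prime_dvd_prime_iff_eq hp Nat.prime_two).1 (by exact_mod_cast h2))
  have hmul : Nat.card Φ₀.ker * Nat.card Φ₀.range = p ^ 2 := by
    rw [← hcard, ← AddSubgroup.index_ker, AddSubgroup.card_mul_index]
  obtain ⟨i, hi, hir⟩ := (Nat.dvd_prime_pow hp).1 (Dvd.intro_left _ hmul)
  have hle : Nat.card Φ₀.range ≤ Nat.card Φ₀.ker :=
    Nat.card_le_card_of_injective _ (AddSubgroup.inclusion_injective hsq)
  have hi1 : i = 1 := by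
    rcases (show i = 0 ∨ i = 1 ∨ i = 2 by omega) with rfl | rfl | rfl
    · exact absurd (AddSubgroup.eq_bot_of_card_eq _ (by simpa using hir)) hne
    · rfl
    · rw [hir] at hmul hle
      have := Nat.eq_of_mul_eq_mul_right (pow_pos hp.pos 2)
        (hmul.trans (one_mul (p ^ 2)).symm)
      rw [this] at hle
      nlinarith [hp.two_le]
  rw [hi1, pow_one] at hir
  have hker : Nat.card Φ₀.ker = p := by
    rw [hir, sq] at hmul
    exact Nat.eq_of_mul_eq_mul_right hp.pos hmul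
  obtain ⟨Q, hQ⟩ : ∃ Q : Φ₀.ker, Q ≠ 0 := by
    haveI : Nontrivial Φ₀.ker := Finite.one_lt_card_iff_nontrivial.1 (hker ▸ hp.one_lt)
    exact exists_ne 0
  have hQp : p • (Q.1.1 : (E.toAffine⁄Qb).Point) = 0 := Q.1.2
  have hord : addOrderOf (Q.1.1 : (E.toAffine⁄Qb).Point) = p :=
    addOrderOf_eq_prime hQp fun h => hQ (Subtype.ext (Subtype.ext h))
  refine ⟨Q.1.1, hord, fun R hR => ⟨fun h => ?_, fun h => ?_⟩⟩
  · have htop : AddSubgroup.zmultiples Q = ⊤ := by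
      apply AddSubgroup.eq_top_of_card_eq
      rw [Nat.card_zmultiples, hker, ← hord, AddSubgroup.addOrderOf_coe,
        AddSubgroup.addOrderOf_coe]
    let R' : Φ₀.ker := ⟨⟨R, hR⟩, Subtype.ext h⟩
    obtain ⟨k, hk⟩ := AddSubgroup.mem_zmultiples_iff.1
      (htop ▸ AddSubgroup.mem_top R' : R' ∈ AddSubgroup.zmultiples Q)
    exact AddSubgroup.mem_zmultiples_iff.2 ⟨k, congrArg (fun x : Φ₀.ker => x.1.1) hk⟩
  · obtain ⟨k, rfl⟩ := AddSubgroup.mem_zmultiples_iff.1 h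
    have e : Φ Q.1.1 = 0 := congrArg Subtype.val (AddMonoidHom.mem_ker.1 Q.2)
    rw [← hΦ, map_zsmul, e, zsmul_zero]

variable {s : Qb}

/-- The line is stable. -/
theorem line_stable {Q : (E.toAffine⁄Qb).Point} (hQ : addOrderOf Q = p)
    (hQline : ∀ R : (E.toAffine⁄Qb).Point, p • R = 0 →
      ((2 : ℤ) • θ R - t • R = 0 ↔ R ∈ AddSubgroup.zmultiples Q))
    (hcomm : ∀ σ : Qb ≃ₐ[F] Qb, σ s = s → ∀ P, θ (σ • P) = σ • θ P)
    (htw : ∀ σ : Qb ≃ₐ[F] Qb, σ s ≠ s → ∀ P, σ • θ P = t • (σ • P) - θ (σ • P))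
    (σ : Qb ≃ₐ[F] Qb) : ∃ c : ℤ, σ • Q = c • Q := by
  have hpQ : p • Q = 0 := hQ ▸ addOrderOf_nsmul_eq_zero Q
  have h0 := congrArg (σ • ·) ((hQline Q hpQ).2 (AddSubgroup.mem_zmultiples Q))
  simp only [Affine.Point.algEquiv_smul_def, map_sub, map_zsmul, map_zero] at h0
  rw [← Affine.Point.algEquiv_smul_def, ← Affine.Point.algEquiv_smul_def] at h0
  have hker : (2 : ℤ) • θ (σ • Q) - t • (σ • Q) = 0 := by
    by_cases hσ : σ s = s
    · rw [hcomm σ hσ, h0]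
    · rw [htw σ hσ] at h0
      generalize σ • Q = Q' at h0 ⊢
      rw [← neg_eq_zero, ← h0]
      module
  obtain ⟨c, hc⟩ := AddSubgroup.mem_zmultiples_iff.1 ((hQline (σ • Q) (by
    rw [Affine.Point.algEquiv_smul_def, ← map_nsmul, hpQ, map_zero])).1 hker)
  exact ⟨c, hc.symm⟩

/-- **A stable line is an eigenline or Galois over `F (√d)` is scalar.** -/
theorem eigen_of_stable (hp : p.Prime) (hsF : s ∉ F)
    (hθθ : ∀ P : (E.toAffine⁄Qb).Point, p • P = 0 → θ (θ P) = t • θ P - m • P)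
    (htw : ∀ σ : Qb ≃ₐ[F] Qb, σ s ≠ s → ∀ P, σ • θ P = t • (σ • P) - θ (σ • P))
    {σ : Qb ≃ₐ[F] Qb} {α k : ℤ} (hk : ¬ (p : ℤ) ∣ k)
    (hα : ∀ P : (E.toAffine⁄Qb).Point, p • P = 0 → σ • P = α • P + k • θ P)
    {Q : (E.toAffine⁄Qb).Point} (hQ : addOrderOf Q = p)
    (hst : ∀ τ : Qb ≃ₐ[F] Qb, ∃ c : ℤ, τ • Q = c • Q) :
    (p : ℤ) ∣ t ^ 2 - 4 * m ∧ (2 : ℤ) • θ Q - t • Q = 0 := by
  have hpQ : p • Q = 0 := hQ ▸ addOrderOf_nsmul_eq_zero Q
  have hθp : p • θ Q = 0 := by rw [← map_nsmul, hpQ, map_zero]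
  have hord : ∀ z : ℤ, z • Q = 0 → (p : ℤ) ∣ z := fun z hz =>
    hQ ▸ addOrderOf_dvd_iff_zsmul_eq_zero.mpr hz
  obtain ⟨a, b, hab⟩ := ((Int.prime_iff_natAbs_prime.mpr
    (by simpa using hp)).coprime_iff_not_dvd.mpr hk)
  obtain ⟨c, hc⟩ := hst σ
  rw [hα Q hpQ] at hc
  obtain ⟨l, hl⟩ : ∃ l : ℤ, θ Q = l • Q := by
    refine ⟨b * (c - α), ?_⟩
    have e : θ Q = (a * (p : ℤ) + b * k) • θ Q := by rw [hab, one_zsmul]
    rw [e, add_zsmul, zsmul_eq_zero_of_dvd (dvd_mul_left _ _) hθp, zero_add, mul_zsmul,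
      mul_zsmul, eq_sub_of_add_eq' hc]
    module
  obtain ⟨τ, hτ⟩ := exists_moving hsF
  obtain ⟨c', hc'⟩ := hst τ
  have hc0 : ¬ (p : ℤ) ∣ c' := fun h => by
    rw [zsmul_eq_zero_of_dvd h hpQ] at hc'
    have : Q = 0 := by rw [← inv_smul_smul τ Q, hc', Affine.Point.algEquiv_smul_def, map_zero]
    rw [this, addOrderOf_zero] at hQ
    exact hp.one_lt.ne hQ
  have hl2 : (p : ℤ) ∣ 2 * l - t := by
    have h := htw τ hτ Q
    rw [hl, Affine.Point.algEquiv_smul_def, map_zsmul, ← Affine.Point.algEquiv_smul_def, hc',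
      map_zsmul, hl, eq_sub_iff_add_eq] at h
    refine ((Int.prime_iff_natAbs_prime.mpr (by simpa using hp)).dvd_mul.1
      (hord (c' * (2 * l - t)) ?_)).resolve_left hc0
    rw [show (c' * (2 * l - t)) • Q = (l • c' • Q + c' • l • Q) - t • c' • Q by module, h, sub_self]
  refine ⟨?_, ?_⟩
  · have hm : (p : ℤ) ∣ l * l - t * l + m := by
      refine hord _ ?_
      have h := hθθ Q hpQ
      rw [hl, map_zsmul, hl, eq_sub_iff_add_eq] at h
      rw [add_zsmul, sub_zsmul, mul_zsmul, mul_zsmul, ← h]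
      abel
    rw [show t ^ 2 - 4 * m = (2 * l - t) * (2 * l - t) - 4 * (l * l - t * l + m) by ring]
    exact dvd_sub (dvd_mul_of_dvd_left hl2 _) (dvd_mul_of_dvd_right hm _)
  · rw [hl, show (2 : ℤ) • l • Q - t • Q = (2 * l - t) • Q by module,
      zsmul_eq_zero_of_dvd hl2 hpQ]

end FA.CMStableLine

end
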