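import Fermat.Agent.CMStableLine.Main

/-!
# The dichotomy for a stable line

If every automorphism fixing `√d` is a scalar on the points killed by `p` its determinant is a
square, so it fixes `√(± p)`; otherwise the stable line is the kernel of `2 θ - t`.
-/

set_option autoImplicit false
set_option linter.style.haveILetI false
set_option linter.unusedSectionVars false

noncomputable section

open WeierstrassCurve NumberField Module FA.IsogenyNF FA.CMFields FA.CMTwist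
open scoped WeierstrassCurve.Affine Classical NumberTheorySymbols

local notation "Qb" => AlgebraicClosure ℚ
local notation "GQ" => AlgebraicClosure ℚ ≃ₐ[ℚ] AlgebraicClosure ℚ

namespace FA.CMStableLine

variable {F : IntermediateField ℚ Qb} [FiniteDimensional ℚ F] {E : WeierstrassCurve F}
  [E.IsElliptic] {p : ℕ}

/-- **A scalar action fixes the quadratic Gauss sum.** -/
theorem jacobi_eq_one_of_scalar (hp : p.Prime) {g : GQ} {σ : Qb ≃ₐ[F] Qb}
    (hgσ : ∀ z, σ z = g z) {α : ℤ}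
    (hα : ∀ P : (E.toAffine⁄Qb).Point, p • P = 0 → σ • P = α • P) {a : ℕ}
    (ha : ∀ μ : Qb, μ ^ p = 1 → g μ = μ ^ a) : J((a : ℤ) | p) = 1 := by
  haveI := Fact.mk hp
  haveI : NumberField F := { }
  haveI : Algebra.IsAlgebraic F Qb := Algebra.IsAlgebraic.tower_top (K := ℚ) F
  have hrep : torRep (Kb := Qb) E p σ = (α : ZMod p) • (1 : Tor Qb E p →ₗ[ZMod p] Tor Qb E p) :=
    LinearMap.ext fun x => by
      rw [LinearMap.smul_apply, Int.cast_smul_eq_zsmul]
      exact Subtype.ext (hα x (nsmul_of_mem E x))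
  have h := det_torRep E hp σ (a := a) fun μ hμ => (hgσ μ).trans (ha μ hμ)
  rw [hrep, LinearMap.det_smul, map_one, mul_one, (finrank_tor (Kb := Qb) E hp).2,
    ← Int.cast_natCast (R := ZMod p) a, ← Int.cast_pow] at h
  have hcop : Int.gcd α p = 1 := by
    rw [← Int.isCoprime_iff_gcd_eq_one, isCoprime_comm,
      (Int.prime_iff_natAbs_prime.mpr (by simpa using hp)).coprime_iff_not_dvd]
    intro hdvd
    have h0 : ((a : ℤ) : ZMod p) = 0 := by
      rw [← h, (ZMod.intCast_zmod_eq_zero_iff_dvd _ p).2 (dvd_pow hdvd two_ne_zero)]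
    rw [ZMod.intCast_zmod_eq_zero_iff_dvd, Int.natCast_dvd_natCast] at h0
    exact hp.coprime_iff_not_dvd.1
      (FA.SerreCurve.coprime_of_apply_roots hp.ne_zero ha).symm h0
  rw [jacobiSym.mod_left' ((ZMod.intCast_eq_intCast_iff' _ _ p).1 h.symm), jacobiSym.sq_one' hcop]

/-- **The dichotomy for a stable line.** -/
theorem stable_dichotomy (ψ : F →+* ℂ) {D d f : ℤ} (hD : D < 0) (hDdf : D = d * f ^ 2)
    {L : PeriodPair} (h2 : L.g₂ = ψ E.c₄ / 12) (h3 : L.g₃ = ψ E.c₆ / 216)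
    (hring : IsMultiplierRing L D) {s : Qb} (hs : s ^ 2 = (d : Qb)) (hsF : s ∉ F) (hp : p.Prime)
    (hp2 : p ≠ 2) {Q : (E.toAffine⁄Qb).Point} (hQ : addOrderOf Q = p)
    (hst : ∀ σ : Qb ≃ₐ[F] Qb, ∃ c : ℤ, σ • Q = c • Q) {r : Qb}
    (hract : ∀ (g : GQ) (a : ℕ), (∀ μ : Qb, μ ^ p = 1 → g μ = μ ^ a) →
      g r = ((J((a : ℤ) | p) : ℤ) : Qb) * r) :
    ((p : ℤ) ∣ D ∧ ∀ Q' : (E.toAffine⁄Qb).Point, addOrderOf Q' = p →
        (∀ σ : Qb ≃ₐ[F] Qb, ∃ c : ℤ, σ • Q' = c • Q') → Q' ∈ AddSubgroup.zmultiples Q) ∨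
      r ∈ F ⊔ IntermediateField.adjoin ℚ {s} := by
  haveI : Algebra.IsAlgebraic F Qb := Algebra.IsAlgebraic.tower_top (K := ℚ) F
  obtain ⟨θ, t, m, htm, hθθ, hact, htw, hfaith⟩ := exists_action_twist (Kb := Qb) E ψ hD hDdf h2
    h3 hring hs hp.ne_zero
  by_cases hex : ∃ (σ : Qb ≃ₐ[F] Qb) (α k : ℤ), ¬ (p : ℤ) ∣ k ∧
      ∀ P : (E.toAffine⁄Qb).Point, p • P = 0 → σ • P = α • P + k • θ P
  · obtain ⟨σ, α, k, hk, hα⟩ := hex
    obtain ⟨hpD, hQ0⟩ := eigen_of_stable hp hsF hθθ htw hk hα hQ hst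
    refine Or.inl ⟨htm ▸ hpD, fun Q' hQ' hst' => ?_⟩
    obtain ⟨Q₀, hQ₀, hline⟩ := exists_line hp hp2 hθθ hfaith hpD
    have hmem : ∀ R : (E.toAffine⁄Qb).Point, addOrderOf R = p →
        (2 : ℤ) • θ R - t • R = 0 → AddSubgroup.zmultiples R = AddSubgroup.zmultiples Q₀ := by
      intro R hR h0
      haveI : Finite (AddSubgroup.zmultiples Q₀) :=
        Nat.finite_of_card_ne_zero (by rw [Nat.card_zmultiples, hQ₀]; exact hp.ne_zero)
      refine AddSubgroup.eq_of_le_of_card_ge (AddSubgroup.zmultiples_le_of_mem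
        ((hline R (hR ▸ addOrderOf_nsmul_eq_zero R)).1 h0)) ?_
      rw [Nat.card_zmultiples, Nat.card_zmultiples, hR, hQ₀]
    rw [hmem Q hQ hQ0, ← hmem Q' hQ' (eigen_of_stable hp hsF hθθ htw hk hα hQ' hst').2]
    exact AddSubgroup.mem_zmultiples Q'
  · push Not at hex
    refine Or.inr ?_
    haveI : IsGalois ℚ Qb := FA.EC.isGalois_algebraicClosure
    rw [← InfiniteGalois.fixedField_fixingSubgroup (F ⊔ IntermediateField.adjoin ℚ {s}),
      IntermediateField.mem_fixedField_iff]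
    intro g hg
    rw [IntermediateField.mem_fixingSubgroup_iff] at hg
    let σ : Qb ≃ₐ[F] Qb := AlgEquiv.ofRingEquiv (f := g.toRingEquiv) fun z =>
      hg z ((le_sup_left : F ≤ F ⊔ IntermediateField.adjoin ℚ {s}) z.2)
    have hσs : σ s = s := hg s ((le_sup_right : IntermediateField.adjoin ℚ {s} ≤
      F ⊔ IntermediateField.adjoin ℚ {s}) (IntermediateField.mem_adjoin_simple_self ℚ s))
    obtain ⟨-, α, k, hαk⟩ := hact σ hσs
    have hk : (p : ℤ) ∣ k := by
      by_contra hk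
      obtain ⟨P, hP, hne⟩ := hex σ α k hk
      exact hne (hαk P hP)
    haveI : NeZero p := ⟨hp.ne_zero⟩
    haveI : NeZero ((p : ℕ) : Qb) := ⟨Nat.cast_ne_zero.mpr hp.ne_zero⟩
    obtain ⟨ζ, hζ⟩ := HasEnoughRootsOfUnity.exists_primitiveRoot Qb p
    obtain ⟨a, -, ha⟩ := hζ.eq_pow_of_pow_eq_one (ξ := g ζ)
      (by rw [← map_pow, hζ.pow_eq_one, map_one])
    have hall : ∀ ν : Qb, ν ^ p = 1 → g ν = ν ^ a := fun ν hν => by
      obtain ⟨i, -, rfl⟩ := hζ.eq_pow_of_pow_eq_one hν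
      rw [map_pow, ← ha, ← pow_mul, ← pow_mul, mul_comm]
    rw [hract g a hall, jacobi_eq_one_of_scalar (E := E) hp (σ := σ) (fun z => rfl) (α := α)
      (fun P hP => by
        rw [hαk P hP, zsmul_eq_zero_of_dvd hk (by rw [← map_nsmul, hP, map_zero]), add_zero]) hall,
      Int.cast_one, one_mul]

end FA.CMStableLine

end
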